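/-
T3 (B), abstract part (helper5): Galois equivariance of a reduction map of places.

`d : TbBase K F k Fb`, `x` a coordinate, `r : Place K F → Place k Fb` a reduction map of places
(`T3aIsRed d x r`, with the uniqueness property).  If `g` is a semilinear automorphism of `F/K` and
`gb` one of `Fb/k` which are compatible with `(A, 𝒪, res)` and `g x = x`, then
`r (g • P) = gb • r P`.
-/
import Mathlib
import Fermat.Agent.Lib.T3.Red.Map
import Fermat.Prelude.Def_AlgebraicCurve_BaseChangeGalois

set_option autoImplicit false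
set_option linter.style.haveILetI false
set_option linter.unusedSectionVars false

namespace Fermat.Agent.T3

open AlgebraicCurve IntermediateField Fermat.Agent.Curve Fermat.Agent.Curve.PlaceAux
  Fermat.Agent.T1

variable {K F k Fb : Type*} [Field K] [Field F] [Algebra K F] [Field k] [Field Fb] [Algebra k Fb]

/-- `OrdGE` is invariant under a semilinear automorphism -/
theorem t3b_ordGE_smul (g : SemilinearAut K F) (P : Place K F) (f : F) (n : ℤ) :
    OrdGE (g • P) (g • f) n ↔ OrdGE P f n := by
  rw [ordGE_iff, ordGE_iff, SemilinearAut.ord_smul]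
  have : g • f = 0 ↔ f = 0 := by
    rw [SemilinearAut.smul_def]
    exact map_eq_zero_iff _ (SemilinearAut.toRingAut g).injective
  rw [this]

/-- a semilinear automorphism fixing `x` preserves `K[x]` -/
theorem t3b_smul_mem_adjoin (g : SemilinearAut K F) {x : F} (hx : g • x = x) {y : F}
    (hy : y ∈ Algebra.adjoin K {x}) : g • y ∈ Algebra.adjoin K {x} := by
  induction hy using Algebra.adjoin_induction with
  | mem y hy =>
    rw [Set.mem_singleton_iff] at hy
    rw [hy, hx]
    exact Algebra.self_mem_adjoin_singleton K x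
  | algebraMap a =>
    rw [SemilinearAut.smul_algebraMap]
    exact Subalgebra.algebraMap_mem _ _
  | add y z _ _ hy hz =>
    rw [smul_add]
    exact Subalgebra.add_mem _ hy hz
  | mul y z _ _ hy hz =>
    rw [smul_mul']
    exact Subalgebra.mul_mem _ hy hz

/-- a semilinear automorphism fixing `x` preserves integrality over `K[x]` -/
theorem t3b_isIntegral_smul (g : SemilinearAut K F) {x : F} (hx : g • x = x) {y : F}
    (hy : IsIntegral ↥(Algebra.adjoin K {x}) y) : IsIntegral ↥(Algebra.adjoin K {x}) (g • y) := by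
  let φ : ↥(Algebra.adjoin K {x}) →+* ↥(Algebra.adjoin K {x}) :=
    { toFun := fun z => ⟨g • (z : F), t3b_smul_mem_adjoin g hx z.2⟩
      map_one' := Subtype.ext (smul_one g)
      map_mul' := fun a b => Subtype.ext (smul_mul' g (a : F) (b : F))
      map_zero' := Subtype.ext (smul_zero g)
      map_add' := fun a b => Subtype.ext (smul_add g (a : F) (b : F)) }
  exact IsIntegral.map_of_comp_eq φ (SemilinearAut.toRingAut g).toRingHom
    (RingHom.ext fun z => rfl) hy

/-- `g` (on `F/K`) and `gb` (on `Fb/k`) are compatible with the base `d` and fix the coordinate -/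
structure T3bCompat (d : TbBase K F k Fb) (x : F) (g : SemilinearAut K F)
    (gb : SemilinearAut k Fb) : Prop where
  mapA : ∀ a : K, a ∈ d.A → SemilinearAut.baseAut g a ∈ d.A
  mapA_symm : ∀ a : K, a ∈ d.A → (SemilinearAut.baseAut g).symm a ∈ d.A
  resA : ∀ (a : K) (ha : a ∈ d.A),
    d.resA ⟨SemilinearAut.baseAut g a, mapA a ha⟩ = SemilinearAut.baseAut gb (d.resA ⟨a, ha⟩)
  mapOv : ∀ f : F, f ∈ d.Ov → g • f ∈ d.Ov
  mapOv_symm : ∀ f : F, f ∈ d.Ov → g⁻¹ • f ∈ d.Ov
  res : ∀ (f : F) (hf : f ∈ d.Ov), d.res ⟨g • f, mapOv f hf⟩ = gb • d.res ⟨f, hf⟩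
  fix : g • x = x

namespace T3bCompat

variable {d : TbBase K F k Fb} {x : F} {g : SemilinearAut K F} {gb : SemilinearAut k Fb}

theorem fix_inv (hc : T3bCompat d x g gb) : g • x⁻¹ = x⁻¹ := by
  rw [smul_inv'', hc.fix]

theorem fix_symm (hc : T3bCompat d x g gb) : g⁻¹ • x = x := by
  rw [inv_smul_eq_iff, hc.fix]

/-- compatibility for the inverse coordinate -/
theorem inv_coord (hc : T3bCompat d x g gb) : T3bCompat d x⁻¹ g gb :=
  { hc with fix := hc.fix_inv }

/-- `g⁻¹` preserves `C = 𝒪 ∩ IntCl(K[x])` -/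
theorem inv_smul_mem_C (hc : T3bCompat d x g gb) {f : F} (hf : f ∈ t3aC d x) :
    g⁻¹ • f ∈ t3aC d x :=
  ⟨hc.mapOv_symm f hf.1, t3b_isIntegral_smul g⁻¹ hc.fix_symm hf.2⟩

/-- the chart places are permuted -/
theorem chartPlace_smul (hc : T3bCompat d x g gb) {P : Place K F} (hP : T3aChartPlace d x P) :
    T3aChartPlace d x (g • P) := by
  obtain ⟨a, ha⟩ := hP
  refine ⟨⟨SemilinearAut.baseAut g (a : K), hc.mapA _ a.2⟩, ?_⟩
  have h1 := (t3b_ordGE_smul g P (x - algebraMap K F (a : K)) 1).mpr ha
  rwa [smul_sub, hc.fix, SemilinearAut.smul_algebraMap] at h1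

end T3bCompat

/-- **Galois equivariance on a chart**: if `r` has the evaluation property and is characterised
by it on the chart `x`, then `r (g • P) = gb • r P` for the places of the chart -/
theorem t3b_red_smul_chart {d : TbBase K F k Fb} {x : F} {g : SemilinearAut K F}
    {gb : SemilinearAut k Fb} (hc : T3bCompat d x g gb) {r : Place K F → Place k Fb}
    (heval : ∀ P : Place K F, T3aChartPlace d x P → ∀ (f : F) (hfC : f ∈ t3aC d x) (c : ↥d.A),
      OrdGE P (f - algebraMap K F (c : K)) 1 →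
        OrdGE (r P) (d.res ⟨f, hfC.1⟩ - algebraMap k Fb (d.resA c)) 1)
    (huniq : ∀ P : Place K F, T3aChartPlace d x P → ∀ Q : Place k Fb,
      (∀ (f : F) (hfC : f ∈ t3aC d x) (c : ↥d.A), OrdGE P (f - algebraMap K F (c : K)) 1 →
        OrdGE Q (d.res ⟨f, hfC.1⟩ - algebraMap k Fb (d.resA c)) 1) → Q = r P)
    (P : Place K F) (hP : T3aChartPlace d x P) : r (g • P) = gb • r P := by
  symm
  apply huniq (g • P) (hc.chartPlace_smul hP)
  intro f hfC c hfc
  -- pull back to `P`
  have hf' : g⁻¹ • f ∈ t3aC d x := hc.inv_smul_mem_C hfC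
  set c' : ↥d.A := ⟨(SemilinearAut.baseAut g).symm (c : K), hc.mapA_symm _ c.2⟩ with hc'
  have h1 : OrdGE P (g⁻¹ • f - algebraMap K F (c' : K)) 1 := by
    rw [← t3b_ordGE_smul g P]
    rw [smul_sub, smul_inv_smul, SemilinearAut.smul_algebraMap]
    show OrdGE (g • P) (f - algebraMap K F
      (SemilinearAut.baseAut g ((SemilinearAut.baseAut g).symm (c : K)))) 1
    rw [RingEquiv.apply_symm_apply]
    exact hfc
  have h2 := heval P hP (g⁻¹ • f) hf' c' h1
  rw [← t3b_ordGE_smul gb] at h2
  rw [smul_sub, SemilinearAut.smul_algebraMap] at h2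
  have h3 : gb • d.res ⟨g⁻¹ • f, hf'.1⟩ = d.res ⟨f, hfC.1⟩ := by
    rw [← hc.res (g⁻¹ • f) hf'.1]
    congr 1
    exact Subtype.ext (smul_inv_smul g f)
  have h4 : SemilinearAut.baseAut gb (d.resA c') = d.resA c := by
    rw [← hc.resA (c' : K) c'.2]
    congr 1
    exact Subtype.ext (RingEquiv.apply_symm_apply _ _)
  rwa [h3, h4] at h2

/-- **Galois equivariance of a reduction map of places**: `r (g • P) = gb • r P`.  The uniqueness
hypotheses `hu1`, `hu2` are supplied by package A (`T3aIsRed.unique`), `hcases` by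
`t3a_chart_cases`. -/
theorem t3b_red_smul {d : TbBase K F k Fb} {x : F} {g : SemilinearAut K F}
    {gb : SemilinearAut k Fb} (hc : T3bCompat d x g gb) {r : Place K F → Place k Fb}
    (hr : T3aIsRed d x r)
    (hcases : ∀ P : Place K F, T3aChartPlace d x P ∨ T3aChartPlace d x⁻¹ P)
    (hu1 : ∀ P : Place K F, T3aChartPlace d x P → ∀ Q : Place k Fb,
      (∀ (f : F) (hfC : f ∈ t3aC d x) (c : ↥d.A), OrdGE P (f - algebraMap K F (c : K)) 1 →
        OrdGE Q (d.res ⟨f, hfC.1⟩ - algebraMap k Fb (d.resA c)) 1) → Q = r P)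
    (hu2 : ∀ P : Place K F, T3aChartPlace d x⁻¹ P → ∀ Q : Place k Fb,
      (∀ (f : F) (hfC : f ∈ t3aC d x⁻¹) (c : ↥d.A), OrdGE P (f - algebraMap K F (c : K)) 1 →
        OrdGE Q (d.res ⟨f, hfC.1⟩ - algebraMap k Fb (d.resA c)) 1) → Q = r P)
    (P : Place K F) : r (g • P) = gb • r P := by
  rcases hcases P with hP | hP
  · exact t3b_red_smul_chart hc hr.eval1 hu1 P hP
  · exact t3b_red_smul_chart hc.inv_coord hr.eval2 hu2 P hP

/-- equivariance of the push-forward of divisors along an equivariant map of places -/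
theorem t3b_mapDomain_smul {g : SemilinearAut K F} {gb : SemilinearAut k Fb}
    {r : Place K F → Place k Fb} (hr : ∀ P : Place K F, r (g • P) = gb • r P)
    (D : Divisor K F) :
    Finsupp.mapDomain r (g • D) = gb • Finsupp.mapDomain r D := by
  induction D using Finsupp.induction with
  | zero => simp
  | single_add v n D _ _ ih =>
    rw [smul_add, Finsupp.mapDomain_add, Finsupp.mapDomain_add, smul_add, ih,
      SemilinearAut.smul_single, Finsupp.mapDomain_single, Finsupp.mapDomain_single,
      SemilinearAut.smul_single, hr]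

/-- iterating: equivariance for the inverse -/
theorem t3b_red_inv_smul {g : SemilinearAut K F} {gb : SemilinearAut k Fb}
    {r : Place K F → Place k Fb} (hr : ∀ P : Place K F, r (g • P) = gb • r P)
    (P : Place K F) : r (g⁻¹ • P) = gb⁻¹ • r P := by
  rw [eq_inv_smul_iff, ← hr, smul_inv_smul]

section Good

variable [IsAlgClosed K] [IsAlgClosed k]

/-- **Galois equivariance of the reduction map of places** under good reduction -/
theorem t3b_red_smul_good {d : TbBase K F k Fb} {ℓ : ℕ} {x : F} (hg : T3aGood d ℓ x)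
    {g : SemilinearAut K F} {gb : SemilinearAut k Fb} (hc : T3bCompat d x g gb)
    {r : Place K F → Place k Fb} (hr : T3aIsRed d x r) (P : Place K F) :
    r (g • P) = gb • r P :=
  t3b_red_smul hc hr
    (fun P => (t3a_chart_cases hg P).imp id (fun ⟨a, _, ha⟩ => ⟨a, ha⟩))
    (fun _ hP Q hQ => hr.unique hg hP Q hQ)
    (fun _ hP Q hQ => hr.unique_inv hg hP Q hQ) P

/-- the divisor version -/
theorem t3b_mapDomain_smul_good {d : TbBase K F k Fb} {ℓ : ℕ} {x : F} (hg : T3aGood d ℓ x)
    {g : SemilinearAut K F} {gb : SemilinearAut k Fb} (hc : T3bCompat d x g gb)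
    {r : Place K F → Place k Fb} (hr : T3aIsRed d x r) (D : Divisor K F) :
    Finsupp.mapDomain r (g • D) = gb • Finsupp.mapDomain r D :=
  t3b_mapDomain_smul (t3b_red_smul_good hg hc hr) D

end Good

end Fermat.Agent.T3
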