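/-
T3 (B), modular part (helper5): the decomposition group acts compatibly on the modular base
`tbBaseQ hOK` (`(ℚ̄, 𝔓) ⊂ (F_M, Gauss ring)`) and on the reduced function field
`tbBarF 𝔓 M = κ(j(q^d) : d ∣ M)`.

* `t3bCoeffRingAut k M s`, `t3bCoeffAut k M : (k ≃+* k) →* SemilinearAut k (tbBar…)`: the
  coefficientwise action of the automorphisms of the constant field;
* `t3bBar 𝔓 M : 𝔓.P.decompositionSubgroup ℚ →* SemilinearAut κ (tbBarF 𝔓 M)`;
* `t3b_compat_modular hOK g : T3bCompat (tbBaseQ hOK) (tbJ M) (arithmeticGalois _ g) (t3bBar 𝔓 M g)`;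
* `t3bBar_of_inertia`, `t3bPhi 𝔓 M` (coefficientwise Frobenius), `t3bBar_of_frobenius`;
* `t3b_red_inertia`, `t3b_red_frobenius` (places), `t3b_mapDomain_inertia`,
  `t3b_mapDomain_frobenius` (divisors).
-/
import Fermat.Agent.Lib.T3.Gal.Abs
import Fermat.Agent.Lib.T1.Inst.BaseQ
import Fermat.Agent.Lib.T1.Kron.Rep

set_option autoImplicit false
set_option linter.style.haveILetI false
set_option linter.unusedSectionVars false
set_option synthInstance.maxHeartbeats 400000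

open HahnSeries ModularCurve Fermat.Agent.TW Fermat.Agent.S05Lib AlgebraicCurve
  Fermat.Agent.Curve IntermediateField Fermat.Agent.T1

noncomputable section

namespace Fermat.Agent.T3

local notation "Qb" => AlgebraicClosure ℚ
local notation "GQ" => (AlgebraicClosure ℚ ≃ₐ[ℚ] AlgebraicClosure ℚ)

/-! ### the coefficientwise action of `Aut k` on `k(j(q^d) : d ∣ M)` -/

section Coeff

variable (k : Type*) [Field k] (M : ℕ) [NeZero M]

/-- the coefficientwise ring automorphism attached to an automorphism of the constants -/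
def t3bCoeffRingAut (s : k ≃+* k) :
    ↥(modularFunctionFieldFullC k M) ≃+* ↥(modularFunctionFieldFullC k M) where
  toFun f := ⟨coeffMap (s : k →+* k) (f : LaurentSeries k), tbi_coeffMap_mem_fullC _ M f.2⟩
  invFun f := ⟨coeffMap (s.symm : k →+* k) (f : LaurentSeries k),
    tbi_coeffMap_mem_fullC _ M f.2⟩
  left_inv f := Subtype.ext <| by
    show coeffMap (s.symm : k →+* k) (coeffMap (s : k →+* k) (f : LaurentSeries k))
      = (f : LaurentSeries k)
    rw [coeffMap_coeffMap,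
      coeffMap_congr (g := RingHom.id k) (RingHom.ext fun a => s.symm_apply_apply a)
        (f : LaurentSeries k), coeffMap_id]
  right_inv f := Subtype.ext <| by
    show coeffMap (s : k →+* k) (coeffMap (s.symm : k →+* k) (f : LaurentSeries k))
      = (f : LaurentSeries k)
    rw [coeffMap_coeffMap,
      coeffMap_congr (g := RingHom.id k) (RingHom.ext fun a => s.apply_symm_apply a)
        (f : LaurentSeries k), coeffMap_id]
  map_mul' f g :=
    Subtype.ext (map_mul (coeffMap (s : k →+* k)) (f : LaurentSeries k) (g : LaurentSeries k))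
  map_add' f g :=
    Subtype.ext (map_add (coeffMap (s : k →+* k)) (f : LaurentSeries k) (g : LaurentSeries k))

@[simp]
theorem coe_t3bCoeffRingAut_apply (s : k ≃+* k) (f : ↥(modularFunctionFieldFullC k M)) :
    ((t3bCoeffRingAut k M s f : ↥(modularFunctionFieldFullC k M)) : LaurentSeries k) =
      coeffMap (s : k →+* k) (f : LaurentSeries k) := rfl

theorem t3bCoeffRingAut_algebraMap (s : k ≃+* k) (a : k) :
    t3bCoeffRingAut k M s (algebraMap k ↥(modularFunctionFieldFullC k M) a) =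
      algebraMap k ↥(modularFunctionFieldFullC k M) (s a) :=
  Subtype.ext (tbi_coeffMap_algebraMap (s : k →+* k) a)

/-- the coefficientwise action of `Aut k` on the function field `k(j(q^d) : d ∣ M)` -/
def t3bCoeffAut : (k ≃+* k) →* SemilinearAut k ↥(modularFunctionFieldFullC k M) where
  toFun s := ⟨(t3bCoeffRingAut k M s, s), fun a => t3bCoeffRingAut_algebraMap k M s a⟩
  map_one' := by
    refine Subtype.ext (Prod.ext (RingEquiv.ext fun f => Subtype.ext ?_) rfl)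
    show coeffMap (((1 : k ≃+* k) : k ≃+* k) : k →+* k) (f : LaurentSeries k) =
      (f : LaurentSeries k)
    rw [show (((1 : k ≃+* k) : k ≃+* k) : k →+* k) = RingHom.id k from RingHom.ext fun _ => rfl,
      coeffMap_id]
  map_mul' s t := by
    refine Subtype.ext (Prod.ext (RingEquiv.ext fun f => Subtype.ext ?_) rfl)
    show coeffMap ((s * t : k ≃+* k) : k →+* k) (f : LaurentSeries k)
      = coeffMap (s : k →+* k) (coeffMap (t : k →+* k) (f : LaurentSeries k))
    rw [coeffMap_coeffMap]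
    exact coeffMap_congr (RingHom.ext fun _ => rfl) _

@[simp]
theorem toRingAut_t3bCoeffAut (s : k ≃+* k) :
    SemilinearAut.toRingAut (t3bCoeffAut k M s) = t3bCoeffRingAut k M s := rfl

@[simp]
theorem baseAut_t3bCoeffAut (s : k ≃+* k) :
    SemilinearAut.baseAut (t3bCoeffAut k M s) = s := rfl

theorem coe_t3bCoeffAut_smul (s : k ≃+* k) (f : ↥(modularFunctionFieldFullC k M)) :
    ((t3bCoeffAut k M s • f : ↥(modularFunctionFieldFullC k M)) : LaurentSeries k) =
      coeffMap (s : k →+* k) (f : LaurentSeries k) := rfl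

theorem t3bCoeffAut_smul_coeff (s : k ≃+* k) (f : ↥(modularFunctionFieldFullC k M)) (n : ℤ) :
    ((t3bCoeffAut k M s • f : ↥(modularFunctionFieldFullC k M)) : LaurentSeries k).coeff n =
      s ((f : LaurentSeries k).coeff n) := by
  rw [coe_t3bCoeffAut_smul, coeffMap_coeff]
  rfl

end Coeff

/-! ### the decomposition group -/

section Decomp

variable (𝔓 : FFPlace) (M : ℕ) [NeZero M]

/-- the action of the decomposition group of `𝔓` on the reduced function field, through its action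
on the residue field -/
def t3bBar : 𝔓.P.decompositionSubgroup ℚ →*
    SemilinearAut (IsLocalRing.ResidueField ↥𝔓.P) ↥(tbBarF 𝔓 M) :=
  (t3bCoeffAut (IsLocalRing.ResidueField ↥𝔓.P) M).comp
    (MulSemiringAction.toRingAut (𝔓.P.decompositionSubgroup ℚ) (IsLocalRing.ResidueField ↥𝔓.P))

theorem coe_t3bBar_smul (g : 𝔓.P.decompositionSubgroup ℚ) (f : ↥(tbBarF 𝔓 M)) :
    ((t3bBar 𝔓 M g • f : ↥(tbBarF 𝔓 M)) : LaurentSeries (IsLocalRing.ResidueField ↥𝔓.P)) =
      coeffMap (MulSemiringAction.toRingHom (𝔓.P.decompositionSubgroup ℚ)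
        (IsLocalRing.ResidueField ↥𝔓.P) g) (f : LaurentSeries (IsLocalRing.ResidueField ↥𝔓.P)) :=
  rfl

theorem baseAut_t3bBar (g : 𝔓.P.decompositionSubgroup ℚ) (a : IsLocalRing.ResidueField ↥𝔓.P) :
    SemilinearAut.baseAut (t3bBar 𝔓 M g) a = g • a := rfl

end Decomp

/-! ### compatibility with the Gauss ring and the reduction -/

section Compat

variable {𝔓 : FFPlace}

theorem t3b_smul_mem (g : 𝔓.P.decompositionSubgroup ℚ) {a : Qb} (ha : a ∈ 𝔓.P) :
    (g : GQ) a ∈ 𝔓.P :=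
  (g • (⟨a, ha⟩ : ↥𝔓.P)).2

/-- the Gauss ring of `ℚ̄((q))` is stable under the decomposition group, and the residue map is
equivariant -/
theorem t3b_gauss_smul (g : 𝔓.P.decompositionSubgroup ℚ) {f : LaurentSeries Qb}
    (hf : TbGauss 𝔓.P (IsLocalRing.residue ↥𝔓.P) f) :
    TbGauss 𝔓.P (IsLocalRing.residue ↥𝔓.P)
      (coeffMap (((g : GQ) : Qb ≃ₐ[ℚ] Qb) : Qb →+* Qb) f) ∧
    tbRhoFun 𝔓.P (IsLocalRing.residue ↥𝔓.P)
      (coeffMap (((g : GQ) : Qb ≃ₐ[ℚ] Qb) : Qb →+* Qb) f) =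
      coeffMap (MulSemiringAction.toRingHom (𝔓.P.decompositionSubgroup ℚ)
        (IsLocalRing.ResidueField ↥𝔓.P) g) (tbRhoFun 𝔓.P (IsLocalRing.residue ↥𝔓.P) f) := by
  obtain ⟨a, b, hb, hab⟩ := hf
  have hrep : TkrRep 𝔓.P f a b := hab
  have hact := hrep.act g
  have hinj : Function.Injective (coeffMap (MulSemiringAction.toRingHom
      (𝔓.P.decompositionSubgroup ℚ) (IsLocalRing.ResidueField ↥𝔓.P) g)) :=
    tkr_coeffMap_injective (RingHom.injective _)
  have hb' : tbRed (IsLocalRing.residue ↥𝔓.P) (tkrActA g b) ≠ 0 := by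
    show coeffMap (IsLocalRing.residue ↥𝔓.P) (tkrActA g b) ≠ 0
    rw [tkr_red_actA]
    intro h0
    exact hb (hinj (h0.trans (map_zero _).symm))
  refine ⟨⟨tkrActA g a, tkrActA g b, hb', hact⟩, ?_⟩
  rw [tbRhoFun_eq 𝔓.P _ hb' hact, tbRhoFun_eq 𝔓.P _ hb hab, map_div₀]
  show coeffMap (IsLocalRing.residue ↥𝔓.P) (tkrActA g a) /
    coeffMap (IsLocalRing.residue ↥𝔓.P) (tkrActA g b) = _
  rw [tkr_red_actA, tkr_red_actA]
  rfl

variable {M : ℕ} [NeZero M]

theorem t3b_mem_tbOvQ_smul (g : 𝔓.P.decompositionSubgroup ℚ) {f : ↥(modularFunctionFieldBar M)}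
    (hf : f ∈ tbOvQ 𝔓 M) :
    arithmeticGalois (modularFunctionFieldFull M) (g : GQ) • f ∈ tbOvQ 𝔓 M :=
  (t3b_gauss_smul g hf).1

/-- **the decomposition group acts compatibly on the modular base and on its reduction** -/
theorem t3b_compat_modular (hOK : ∀ H : Subgroup 𝔓.I, H.FiniteIndex → TbLevelOK 𝔓 M H)
    (g : 𝔓.P.decompositionSubgroup ℚ) :
    T3bCompat (tbBaseQ hOK) (tbJ M) (arithmeticGalois (modularFunctionFieldFull M) (g : GQ))
      (t3bBar 𝔓 M g) where
  mapA := fun a ha => t3b_smul_mem g ha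
  mapA_symm := fun a ha => t3b_smul_mem g⁻¹ ha
  resA := fun a ha => IsLocalRing.ResidueField.residue_smul _ g (⟨a, ha⟩ : ↥𝔓.P)
  mapOv := fun f hf => t3b_mem_tbOvQ_smul g hf
  mapOv_symm := fun f hf => by
    have h := t3b_mem_tbOvQ_smul g⁻¹ hf
    rwa [Subgroup.coe_inv, map_inv] at h
  res := fun f hf => Subtype.ext (t3b_gauss_smul g hf).2
  fix := Subtype.ext (coeffMap_jqModC _)

end Compat

/-! ### inertia and Frobenius -/

section Special

variable (𝔓 : FFPlace) (M : ℕ) [NeZero M]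

/-- inertia acts trivially on the reduced function field -/
theorem t3bBar_of_inertia {g : 𝔓.P.decompositionSubgroup ℚ}
    (hg : g ∈ ValuationSubring.inertiaSubgroup ℚ 𝔓.P) : t3bBar 𝔓 M g = 1 := by
  have h1 : MulSemiringAction.toRingAut (𝔓.P.decompositionSubgroup ℚ)
      (IsLocalRing.ResidueField ↥𝔓.P) g = 1 := hg
  exact (congrArg (t3bCoeffAut (IsLocalRing.ResidueField ↥𝔓.P) M) h1).trans (map_one _)

theorem t3b_exists_of_mem_inertiaSubgroupIn {τ : GQ} (hτ : τ ∈ 𝔓.P.inertiaSubgroupIn ℚ) :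
    ∃ g : 𝔓.P.decompositionSubgroup ℚ, g ∈ ValuationSubring.inertiaSubgroup ℚ 𝔓.P ∧
      (g : GQ) = τ := by
  obtain ⟨g, hg, rfl⟩ := Subgroup.mem_map.mp hτ
  exact ⟨g, hg, rfl⟩

/-- the residue field has characteristic `p` -/
theorem t3b_charP : CharP (IsLocalRing.ResidueField ↥𝔓.P) 𝔓.p :=
  tkr_charP_residue 𝔓.hp 𝔓.hP

/-- the Frobenius automorphism of the residue field -/
def t3bFrob : IsLocalRing.ResidueField ↥𝔓.P ≃+* IsLocalRing.ResidueField ↥𝔓.P :=
  haveI : Fact 𝔓.p.Prime := ⟨𝔓.hp⟩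
  haveI : CharP (IsLocalRing.ResidueField ↥𝔓.P) 𝔓.p := t3b_charP 𝔓
  haveI : IsAlgClosed (IsLocalRing.ResidueField ↥𝔓.P) := tb_isAlgClosed_residueField 𝔓.P
  frobeniusEquiv (IsLocalRing.ResidueField ↥𝔓.P) 𝔓.p

theorem t3bFrob_apply (a : IsLocalRing.ResidueField ↥𝔓.P) : t3bFrob 𝔓 a = a ^ 𝔓.p := by
  haveI : Fact 𝔓.p.Prime := ⟨𝔓.hp⟩
  haveI : CharP (IsLocalRing.ResidueField ↥𝔓.P) 𝔓.p := t3b_charP 𝔓
  haveI : IsAlgClosed (IsLocalRing.ResidueField ↥𝔓.P) := tb_isAlgClosed_residueField 𝔓.P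
  exact frobeniusEquiv_apply (IsLocalRing.ResidueField ↥𝔓.P) 𝔓.p a

/-- **the coefficientwise Frobenius** `Σ aₙ qⁿ ↦ Σ aₙ^p qⁿ` of the reduced function field -/
def t3bPhi : SemilinearAut (IsLocalRing.ResidueField ↥𝔓.P) ↥(tbBarF 𝔓 M) :=
  t3bCoeffAut (IsLocalRing.ResidueField ↥𝔓.P) M (t3bFrob 𝔓)

theorem baseAut_t3bPhi (a : IsLocalRing.ResidueField ↥𝔓.P) :
    SemilinearAut.baseAut (t3bPhi 𝔓 M) a = a ^ 𝔓.p := t3bFrob_apply 𝔓 a

theorem t3bPhi_smul_coeff (f : ↥(tbBarF 𝔓 M)) (n : ℤ) :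
    ((t3bPhi 𝔓 M • f : ↥(tbBarF 𝔓 M)) : LaurentSeries (IsLocalRing.ResidueField ↥𝔓.P)).coeff n =
      ((f : LaurentSeries (IsLocalRing.ResidueField ↥𝔓.P)).coeff n) ^ 𝔓.p := by
  rw [t3bPhi, t3bCoeffAut_smul_coeff, t3bFrob_apply]

/-- in terms of `frobenius` (as used by the Kronecker congruence `tkr_red_tilde`) -/
theorem coe_t3bPhi_smul [Fact 𝔓.p.Prime] [CharP (IsLocalRing.ResidueField ↥𝔓.P) 𝔓.p]
    (f : ↥(tbBarF 𝔓 M)) :
    ((t3bPhi 𝔓 M • f : ↥(tbBarF 𝔓 M)) : LaurentSeries (IsLocalRing.ResidueField ↥𝔓.P)) =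
      coeffMap (frobenius (IsLocalRing.ResidueField ↥𝔓.P) 𝔓.p)
        (f : LaurentSeries (IsLocalRing.ResidueField ↥𝔓.P)) := by
  ext n
  rw [t3bPhi_smul_coeff, coeffMap_coeff, frobenius_def]

/-- a Frobenius element acts on the reduced function field as the coefficientwise Frobenius -/
theorem t3bBar_of_frobenius {σ : GQ} (hσ : 𝔓.P.IsFrobeniusAt σ 𝔓.p) :
    t3bBar 𝔓 M ⟨σ, hσ.mem_decompositionSubgroup⟩ = t3bPhi 𝔓 M := by
  have h1 : MulSemiringAction.toRingAut (𝔓.P.decompositionSubgroup ℚ)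
      (IsLocalRing.ResidueField ↥𝔓.P) ⟨σ, hσ.mem_decompositionSubgroup⟩ = t3bFrob 𝔓 := by
    refine RingEquiv.ext fun a => ?_
    rw [t3bFrob_apply]
    exact hσ.smul_residue_eq a
  exact congrArg (t3bCoeffAut (IsLocalRing.ResidueField ↥𝔓.P) M) h1

end Special

/-! ### the equivariance of a reduction map of places of `F_M` -/

section Final

variable {𝔓 : FFPlace} {M : ℕ} [NeZero M]
  (hOK : ∀ H : Subgroup 𝔓.I, H.FiniteIndex → TbLevelOK 𝔓 M H) {ℓ : ℕ}
  (hg : T3aGood (tbBaseQ hOK) ℓ (tbJ M))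
  {r : Place Qb ↥(modularFunctionFieldBar M) →
    Place (IsLocalRing.ResidueField ↥𝔓.P) ↥(tbBarF 𝔓 M)}
  (hr : T3aIsRed (tbBaseQ hOK) (tbJ M) r)

include hg hr

/-- equivariance for the decomposition group -/
theorem t3b_red_decomp (g : 𝔓.P.decompositionSubgroup ℚ)
    (P : Place Qb ↥(modularFunctionFieldBar M)) :
    r (arithmeticGalois (modularFunctionFieldFull M) (g : GQ) • P) = t3bBar 𝔓 M g • r P := by
  haveI : IsAlgClosed (IsLocalRing.ResidueField ↥𝔓.P) := tb_isAlgClosed_residueField 𝔓.P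
  exact t3b_red_smul_good hg (t3b_compat_modular hOK g) hr P

/-- **(i) inertia acts trivially on the reductions of places** -/
theorem t3b_red_inertia {τ : GQ} (hτ : τ ∈ 𝔓.P.inertiaSubgroupIn ℚ)
    (P : Place Qb ↥(modularFunctionFieldBar M)) :
    r (arithmeticGalois (modularFunctionFieldFull M) τ • P) = r P := by
  obtain ⟨g, hgI, rfl⟩ := t3b_exists_of_mem_inertiaSubgroupIn 𝔓 hτ
  rw [t3b_red_decomp hOK hg hr g P, t3bBar_of_inertia 𝔓 M hgI, one_smul]

/-- **(i') a Frobenius element acts on the reductions of places as the coefficientwise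
Frobenius** -/
theorem t3b_red_frobenius {σ : GQ} (hσ : 𝔓.P.IsFrobeniusAt σ 𝔓.p)
    (P : Place Qb ↥(modularFunctionFieldBar M)) :
    r (arithmeticGalois (modularFunctionFieldFull M) σ • P) = t3bPhi 𝔓 M • r P := by
  have h := t3b_red_decomp hOK hg hr ⟨σ, hσ.mem_decompositionSubgroup⟩ P
  rwa [t3bBar_of_frobenius 𝔓 M hσ] at h

/-- (i) for divisors -/
theorem t3b_mapDomain_inertia {τ : GQ} (hτ : τ ∈ 𝔓.P.inertiaSubgroupIn ℚ)
    (D : Divisor Qb ↥(modularFunctionFieldBar M)) :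
    Finsupp.mapDomain r (arithmeticGalois (modularFunctionFieldFull M) τ • D) =
      Finsupp.mapDomain r D := by
  have h := t3b_mapDomain_smul (g := arithmeticGalois (modularFunctionFieldFull M) τ)
    (gb := (1 : SemilinearAut (IsLocalRing.ResidueField ↥𝔓.P) ↥(tbBarF 𝔓 M))) (r := r)
    (fun P => (t3b_red_inertia hOK hg hr hτ P).trans (one_smul _ _).symm) D
  exact h.trans (one_smul _ _)

/-- (i') for divisors -/
theorem t3b_mapDomain_frobenius {σ : GQ} (hσ : 𝔓.P.IsFrobeniusAt σ 𝔓.p)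
    (D : Divisor Qb ↥(modularFunctionFieldBar M)) :
    Finsupp.mapDomain r (arithmeticGalois (modularFunctionFieldFull M) σ • D) =
      t3bPhi 𝔓 M • Finsupp.mapDomain r D :=
  t3b_mapDomain_smul (fun P => t3b_red_frobenius hOK hg hr hσ P) D

end Final

end Fermat.Agent.T3
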