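/-
T3 (B), part 3 (helper5): Galois equivariance of the reduction map on divisor classes
`t3aRed hg : Pic0 K F →+ Pic0 k Fb`, abstractly and for the modular base:
inertia acts trivially (`t3b_t3aRed_inertia`), a Frobenius element acts as the coefficientwise
Frobenius `t3bPhi` (`t3b_t3aRed_frobenius`).
-/
import Fermat.Agent.Lib.T3.Gal.Mod
import Fermat.Agent.Lib.T3.Red.Pic

set_option autoImplicit false
set_option linter.style.haveILetI false
set_option linter.unusedSectionVars false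
set_option synthInstance.maxHeartbeats 400000

open HahnSeries ModularCurve Fermat.Agent.TW Fermat.Agent.S05Lib AlgebraicCurve
  Fermat.Agent.Curve IntermediateField Fermat.Agent.T1

noncomputable section

namespace Fermat.Agent.T3

local notation "Qb" => AlgebraicClosure ℚ
local notation "GQ" => (AlgebraicClosure ℚ ≃ₐ[ℚ] AlgebraicClosure ℚ)

section Abs

variable {K F k Fb : Type*} [Field K] [Field F] [Algebra K F] [Field k] [Field Fb] [Algebra k Fb]
  [IsAlgClosed K] [IsAlgClosed k]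

/-- **Galois equivariance of the reduction map on divisor classes** -/
theorem t3b_t3aRed_smul {d : TbBase K F k Fb} {ℓ : ℕ} {x : F} (hg : T3aGood d ℓ x)
    {g : SemilinearAut K F} {gb : SemilinearAut k Fb} (hc : T3bCompat d x g gb)
    (y : Pic0 K F) : t3aRed hg (g • y) = gb • t3aRed hg y := by
  obtain ⟨D, rfl⟩ := Pic0.mk_surjective y
  rw [SemilinearAut.pic0_smul_mk, t3aRed_mk, t3aRed_mk, SemilinearAut.pic0_smul_mk]
  refine congrArg Pic0.mk (Subtype.ext ?_)
  rw [coe_t3aRedDiv0, SemilinearAut.coe_degZeroSMulHom, SemilinearAut.coe_degZeroSMulHom,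
    coe_t3aRedDiv0]
  exact t3b_mapDomain_smul_good hg hc (t3aR_isRed hg) (D : Divisor K F)

end Abs

section Modular

variable {𝔓 : FFPlace} {M : ℕ} [NeZero M]
  (hOK : ∀ H : Subgroup 𝔓.I, H.FiniteIndex → TbLevelOK 𝔓 M H) {ℓ : ℕ}

/-- `t3aRed` for the modular base, with the instance `IsAlgClosed κ` supplied -/
def t3bRed (hg : T3aGood (tbBaseQ hOK) ℓ (tbJ M)) :
    Pic0 Qb ↥(modularFunctionFieldBar M) →+
      Pic0 (IsLocalRing.ResidueField ↥𝔓.P) ↥(tbBarF 𝔓 M) :=
  haveI : IsAlgClosed (IsLocalRing.ResidueField ↥𝔓.P) := tb_isAlgClosed_residueField 𝔓.P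
  t3aRed hg

variable (hg : T3aGood (tbBaseQ hOK) ℓ (tbJ M))

theorem t3bRed_decomp (g : 𝔓.P.decompositionSubgroup ℚ) (y : JZero M) :
    t3bRed hOK hg ((g : GQ) • y) = t3bBar 𝔓 M g • t3bRed hOK hg y := by
  haveI : IsAlgClosed (IsLocalRing.ResidueField ↥𝔓.P) := tb_isAlgClosed_residueField 𝔓.P
  exact t3b_t3aRed_smul hg (t3b_compat_modular hOK g) y

/-- **(i) inertia acts trivially after reduction** -/
theorem t3bRed_inertia {τ : GQ} (hτ : τ ∈ 𝔓.P.inertiaSubgroupIn ℚ) (y : JZero M) :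
    t3bRed hOK hg (τ • y) = t3bRed hOK hg y := by
  obtain ⟨g, hgI, rfl⟩ := t3b_exists_of_mem_inertiaSubgroupIn 𝔓 hτ
  rw [t3bRed_decomp hOK hg g y, t3bBar_of_inertia 𝔓 M hgI, one_smul]

/-- **(i') a Frobenius element acts after reduction as the coefficientwise Frobenius** -/
theorem t3bRed_frobenius {σ : GQ} (hσ : 𝔓.P.IsFrobeniusAt σ 𝔓.p) (y : JZero M) :
    t3bRed hOK hg (σ • y) = t3bPhi 𝔓 M • t3bRed hOK hg y := by
  have h := t3bRed_decomp hOK hg ⟨σ, hσ.mem_decompositionSubgroup⟩ y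
  rwa [t3bBar_of_frobenius 𝔓 M hσ] at h

/-- injectivity on prime-to-`ℓ` torsion, for `t3bRed` -/
theorem t3bRed_injective_torsion {m : ℕ} (hm : Nat.Coprime m ℓ) (y : JZero M)
    (hmy : m • y = 0) (hy : t3bRed hOK hg y = 0) : y = 0 := by
  haveI : IsAlgClosed (IsLocalRing.ResidueField ↥𝔓.P) := tb_isAlgClosed_residueField 𝔓.P
  exact t3aRed_injective_torsion hg hm y hmy hy

end Modular

end Fermat.Agent.T3
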